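import Fermat.Agent.LevelOne.DeltaExpansion
import Mathlib.RingTheory.PowerSeries.Expand

/-!
# The expansions of `Δ` and `j` modulo `q¹⁰`

The first ten coefficients of `η`, `Δ`, `Δ⁻¹`, `E₄` and `q j` are computed in `Trunc10`, together
with their images under `q ↦ q²` and `q ↦ q³`. They serve as certificates for the identities of
`Hauptmodul/Identities.lean`.
-/

set_option autoImplicit false

noncomputable section

open PowerSeries
open scoped PowerSeries.WithPiTopology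

namespace Fermat.Agent.Reduction.Hauptmodul

/-- Power series modulo `q¹⁰`. -/
abbrev Trunc10 : Type := PowerSeries ℤ ⧸ Ideal.span {(X : PowerSeries ℤ) ^ 10}

/-- Truncation modulo `q¹⁰`. -/
abbrev toTrunc : PowerSeries ℤ →+* Trunc10 := Ideal.Quotient.mk _

/-- The class of `q`. -/
abbrev qe : Trunc10 := toTrunc X

local notation "ε" => qe

theorem qe_pow_ten : ε ^ 10 = 0 := by
  rw [← map_pow, Ideal.Quotient.eq_zero_iff_mem]
  exact Ideal.mem_span_singleton_self _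

theorem toTrunc_eq_iff {f g : PowerSeries ℤ} :
    toTrunc f = toTrunc g ↔ ∀ k < 10, coeff k f = coeff k g := by
  rw [Ideal.Quotient.mk_eq_mk_iff_sub_mem, Ideal.mem_span_singleton, X_pow_dvd_iff]
  simp only [map_sub, sub_eq_zero]

theorem toTrunc_etaProd : toTrunc ModularCurve.etaProd = 1 + (-1) * ε + (-1) * ε ^ 2 + 1 * ε ^ 5 +
    1 * ε ^ 7 := by
  have h1 : Filter.Tendsto
      (fun n => ∏ i ∈ Finset.range n, ((1 : PowerSeries ℤ) - PowerSeries.X ^ (i + 1)))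
      Filter.atTop (nhds ModularCurve.etaProd) :=
    (PowerSeries.WithPiTopology.multipliable_one_sub_X_pow ℤ).hasProd.tendsto_prod_nat
  have hst : ∀ n, 9 ≤ n →
      toTrunc (∏ i ∈ Finset.range n, ((1 : PowerSeries ℤ) - PowerSeries.X ^ (i + 1))) =
        toTrunc (∏ i ∈ Finset.range 9, ((1 : PowerSeries ℤ) - PowerSeries.X ^ (i + 1))) := by
    intro n hn
    induction n, hn using Nat.le_induction with
    | base => rfl
    | succ n hn ih =>
      rw [Finset.prod_range_succ, map_mul, ih, map_sub, map_one, map_pow,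
        pow_eq_zero_of_le (show 10 ≤ n + 1 by omega) qe_pow_ten, sub_zero, mul_one]
  have h : toTrunc ModularCurve.etaProd =
      toTrunc (∏ i ∈ Finset.range 9, ((1 : PowerSeries ℤ) - PowerSeries.X ^ (i + 1))) := by
    rw [toTrunc_eq_iff]
    intro k hk
    have h4 := ((PowerSeries.WithPiTopology.tendsto_iff_coeff_tendsto ℤ _ _ _).mp h1) k
    refine tendsto_nhds_unique h4 (tendsto_const_nhds.congr' ?_)
    filter_upwards [Filter.eventually_ge_atTop 9] with n hn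
    exact (toTrunc_eq_iff.mp (hst n hn) k hk).symm
  rw [h]
  simp only [Finset.prod_range_succ, Finset.prod_range_zero, map_mul, map_sub, map_one, map_pow]
  linear_combination (1 + (-2) * ε ^ 2 + (-1) * ε ^ 3 + (-1) * ε ^ 4 + (-1) * ε ^ 5 + 1 * ε ^ 7 +
      1 * ε ^ 8 + 1 * ε ^ 9 + 2 * ε ^ 10 + 1 * ε ^ 11 + 1 * ε ^ 12 + (-1) * ε ^ 13 +
      (-1) * ε ^ 14 + (-2) * ε ^ 15 + (-1) * ε ^ 16 + (-1) * ε ^ 17 + (-1) * ε ^ 18 + 1 * ε ^ 20 +
      1 * ε ^ 21 + 1 * ε ^ 22 + 2 * ε ^ 23 + (-1) * ε ^ 25 + (-1) * ε ^ 28 + (-1) * ε ^ 30 +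
      1 * ε ^ 33 + 1 * ε ^ 34 + (-1) * ε ^ 35) * qe_pow_ten

/-- `Δ/q = ∏ (1 - qⁿ)²⁴` modulo `q¹⁰`. -/
theorem toTrunc_dedekindEtaUnit :
    toTrunc ModularCurve.dedekindEtaUnit = 1 + (-24) * ε + 252 * ε ^ 2 + (-1472) * ε ^ 3 +
        4830 * ε ^ 4 + (-6048) * ε ^ 5 + (-16744) * ε ^ 6 + 84480 * ε ^ 7 + (-113643) * ε ^ 8 +
        (-115920) * ε ^ 9 := by
  have h2 : toTrunc ModularCurve.etaProd ^ 2 = 1 + (-2) * ε + (-1) * ε ^ 2 + 2 * ε ^ 3 +
      1 * ε ^ 4 + 2 * ε ^ 5 + (-2) * ε ^ 6 + (-2) * ε ^ 8 + (-2) * ε ^ 9 := by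
    rw [toTrunc_etaProd]
    linear_combination (1 + 2 * ε ^ 2 + 1 * ε ^ 4) * qe_pow_ten
  have h4 : toTrunc ModularCurve.etaProd ^ 4 = 1 + (-4) * ε + 2 * ε ^ 2 + 8 * ε ^ 3 +
      (-5) * ε ^ 4 + (-4) * ε ^ 5 + (-10) * ε ^ 6 + 8 * ε ^ 7 + 9 * ε ^ 8 := by
    rw [show toTrunc ModularCurve.etaProd ^ 4 = toTrunc ModularCurve.etaProd ^ 2 * toTrunc
        ModularCurve.etaProd ^ 2 by rw [← pow_add], h2]
    linear_combination (12 + (-12) * ε + (-8) * ε ^ 2 + (-12) * ε ^ 3 + 8 * ε ^ 5 + 4 * ε ^ 6 +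
        8 * ε ^ 7 + 4 * ε ^ 8) * qe_pow_ten
  have h8 : toTrunc ModularCurve.etaProd ^ 8 = 1 + (-8) * ε + 20 * ε ^ 2 + (-70) * ε ^ 4 +
      64 * ε ^ 5 + 56 * ε ^ 6 + (-125) * ε ^ 8 + (-160) * ε ^ 9 := by
    rw [show toTrunc ModularCurve.etaProd ^ 8 = toTrunc ModularCurve.etaProd ^ 4 * toTrunc
        ModularCurve.etaProd ^ 4 by rw [← pow_add], h4]
    linear_combination (280 + 144 * ε + (-54) * ε ^ 2 + (-232) * ε ^ 3 + (-116) * ε ^ 4 +
        144 * ε ^ 5 + 81 * ε ^ 6) * qe_pow_ten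
  have h16 : toTrunc ModularCurve.etaProd ^ 16 = 1 + (-16) * ε + 104 * ε ^ 2 + (-320) * ε ^ 3 +
      260 * ε ^ 4 + 1248 * ε ^ 5 + (-3712) * ε ^ 6 + 1664 * ε ^ 7 + 6890 * ε ^ 8 +
      (-7280) * ε ^ 9 := by
    rw [show toTrunc ModularCurve.etaProd ^ 16 = toTrunc ModularCurve.etaProd ^ 8 * toTrunc
        ModularCurve.etaProd ^ 8 by rw [← pow_add], h8]
    linear_combination ((-6184) + 768 * ε + 20636 * ε ^ 2 + 6400 * ε ^ 3 + (-34480) * ε ^ 4 +
        (-17920) * ε ^ 5 + 15625 * ε ^ 6 + 40000 * ε ^ 7 + 25600 * ε ^ 8) * qe_pow_ten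
  rw [ModularCurve.dedekindEtaUnit, map_pow, show toTrunc ModularCurve.etaProd ^ 24 =
      toTrunc ModularCurve.etaProd ^ 16 * toTrunc ModularCurve.etaProd ^ 8 by rw [← pow_add], h16,
      h8]
  linear_combination (539872 + (-406400) * ε + (-564976) * ε ^ 2 + 846144 * ε ^ 3 +
      184240 * ε ^ 4 + (-21760) * ε ^ 5 + (-1127490) * ε ^ 6 + (-192400) * ε ^ 7 +
      1164800 * ε ^ 8) * qe_pow_ten

theorem toTrunc_dedekindEtaUnitInv :
    toTrunc ModularCurve.dedekindEtaUnitInv = 1 + 24 * ε + 324 * ε ^ 2 + 3200 * ε ^ 3 +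
        25650 * ε ^ 4 + 176256 * ε ^ 5 + 1073720 * ε ^ 6 + 5930496 * ε ^ 7 + 30178575 * ε ^ 8 +
        143184000 * ε ^ 9 := by
  have h1 := congrArg toTrunc ModularCurve.dedekindEtaUnit_mul_inv
  rw [map_mul, map_one, toTrunc_dedekindEtaUnit] at h1
  have h2 : (1 + (-24) * ε + 252 * ε ^ 2 + (-1472) * ε ^ 3 + 4830 * ε ^ 4 + (-6048) * ε ^ 5 +
      (-16744) * ε ^ 6 + 84480 * ε ^ 7 + (-113643) * ε ^ 8 + (-115920) * ε ^ 9) * (1 + 24 * ε +
      324 * ε ^ 2 + 3200 * ε ^ 3 + 25650 * ε ^ 4 + 176256 * ε ^ 5 + 1073720 * ε ^ 6 +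
      5930496 * ε ^ 7 + 30178575 * ε ^ 8 + 143184000 * ε ^ 9) = (1 : Trunc10) := by
    linear_combination ((-639783912) + 12624408576 * ε + (-107246118308) * ε ^ 2 +
        477462730368 * ε ^ 3 + (-1012730947200) * ε ^ 4 + (-646411859328) * ε ^ 5 +
        7979137424955 * ε ^ 6 + (-19770159726000) * ε ^ 7 + (-16597889280000) * ε ^ 8) * qe_pow_ten
  linear_combination (1 + 24 * ε + 324 * ε ^ 2 + 3200 * ε ^ 3 + 25650 * ε ^ 4 + 176256 * ε ^ 5 +
      1073720 * ε ^ 6 + 5930496 * ε ^ 7 + 30178575 * ε ^ 8 +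
      143184000 * ε ^ 9) * h1 - toTrunc ModularCurve.dedekindEtaUnitInv * h2

theorem toTrunc_eisenstein4 : toTrunc ModularCurve.eisenstein4 = 1 + 240 * ε + 2160 * ε ^ 2 +
    6720 * ε ^ 3 + 17520 * ε ^ 4 + 30240 * ε ^ 5 + 60480 * ε ^ 6 + 82560 * ε ^ 7 + 140400 * ε ^ 8 +
    181680 * ε ^ 9 := by
  rw [show (1 + 240 * ε + 2160 * ε ^ 2 + 6720 * ε ^ 3 + 17520 * ε ^ 4 + 30240 * ε ^ 5 +
      60480 * ε ^ 6 + 82560 * ε ^ 7 + 140400 * ε ^ 8 + 181680 * ε ^ 9 : Trunc10) = toTrunc (1 +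
      PowerSeries.C (240 : ℤ) * (X : PowerSeries ℤ) +
      PowerSeries.C (2160 : ℤ) * (X : PowerSeries ℤ) ^ 2 +
      PowerSeries.C (6720 : ℤ) * (X : PowerSeries ℤ) ^ 3 +
      PowerSeries.C (17520 : ℤ) * (X : PowerSeries ℤ) ^ 4 +
      PowerSeries.C (30240 : ℤ) * (X : PowerSeries ℤ) ^ 5 +
      PowerSeries.C (60480 : ℤ) * (X : PowerSeries ℤ) ^ 6 +
      PowerSeries.C (82560 : ℤ) * (X : PowerSeries ℤ) ^ 7 +
      PowerSeries.C (140400 : ℤ) * (X : PowerSeries ℤ) ^ 8 +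
      PowerSeries.C (181680 : ℤ) * (X : PowerSeries ℤ) ^ 9) by
    simp only [map_add, map_mul, map_pow, map_one, map_ofNat], toTrunc_eq_iff]
  intro k hk
  interval_cases k <;>
    (simp only [ModularCurve.eisenstein4, coeff_mk, map_add, coeff_C_mul, coeff_X_pow, coeff_X,
        coeff_one]; decide)

/-- The expansion of `q j` modulo `q¹⁰`. -/
theorem toTrunc_jNum : toTrunc ModularCurve.jNum = 1 + 744 * ε + 196884 * ε ^ 2 +
    21493760 * ε ^ 3 + 864299970 * ε ^ 4 + 20245856256 * ε ^ 5 + 333202640600 * ε ^ 6 +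
    4252023300096 * ε ^ 7 + 44656994071935 * ε ^ 8 + 401490886656000 * ε ^ 9 := by
  rw [ModularCurve.jNum, map_mul, map_pow, toTrunc_eisenstein4, toTrunc_dedekindEtaUnitInv]
  linear_combination ((4837017600 + 9222566400 * ε + 16012454400 * ε ^ 2 + 24843916800 * ε ^ 3 +
      34786944000 * ε ^ 4 + 45158860800 * ε ^ 5 + 49711161600 * ε ^ 6 + 51015744000 * ε ^ 7 +
      33007622400 * ε ^ 8) * (1 + 240 * ε + 2160 * ε ^ 2 + 6720 * ε ^ 3 + 17520 * ε ^ 4 +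
      30240 * ε ^ 5 + 60480 * ε ^ 6 + 82560 * ε ^ 7 + 140400 * ε ^ 8 + 181680 * ε ^ 9) * (1 +
      24 * ε + 324 * ε ^ 2 + 3200 * ε ^ 3 + 25650 * ε ^ 4 + 176256 * ε ^ 5 + 1073720 * ε ^ 6 +
      5930496 * ε ^ 7 + 30178575 * ε ^ 8 + 143184000 * ε ^ 9) +
    (9481630003200 + 25882831180800 * ε + 57757565260800 * ε ^ 2 + 112719752985600 * ε ^ 3 +
        189288725760000 * ε ^ 4 + 302791487385600 * ε ^ 5 + 403892448883200 * ε ^ 6 +
        506806416000000 * ε ^ 7 + 417296315404800 * ε ^ 8) * (1 + 24 * ε + 324 * ε ^ 2 +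
        3200 * ε ^ 3 + 25650 * ε ^ 4 + 176256 * ε ^ 5 + 1073720 * ε ^ 6 + 5930496 * ε ^ 7 +
        30178575 * ε ^ 8 + 143184000 * ε ^ 9) + (3166953122697840 + 22312201786047360 * ε +
        142301966798610000 * ε ^ 2 + 821999085350466240 * ε ^ 3 + 4213194859742627520 * ε ^ 4 +
        18613072665805363200 * ε ^ 5 + 69083589700458609840 * ε ^ 6 +
        206481889374308118000 * ε ^ 7 + 426039648519087360000 * ε ^ 8)) * qe_pow_ten

/-- Congruences modulo `q¹⁰` are respected by `q ↦ qᵐ`. -/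
theorem toTrunc_expand {m : ℕ} (hm : m ≠ 0) {f g : PowerSeries ℤ} (h : toTrunc f = toTrunc g) :
    toTrunc (expand m hm f) = toTrunc (expand m hm g) := by
  rw [Ideal.Quotient.mk_eq_mk_iff_sub_mem, Ideal.mem_span_singleton] at h ⊢
  obtain ⟨c, hc⟩ := h
  refine ⟨(X : PowerSeries ℤ) ^ (10 * (m - 1)) * expand m hm c, ?_⟩
  rw [← map_sub, hc, map_mul, map_pow, expand_X, ← pow_mul, ← mul_assoc, ← pow_add]
  congr 2
  obtain ⟨m, rfl⟩ := Nat.exists_eq_succ_of_ne_zero hm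
  simp only [Nat.succ_eq_add_one, Nat.add_sub_cancel]
  ring

theorem toTrunc_expand_etaInv_2 :
    toTrunc (expand 2 (by norm_num) ModularCurve.dedekindEtaUnitInv) = 1 + 24 * ε ^ 2 +
        324 * ε ^ 4 + 3200 * ε ^ 6 + 25650 * ε ^ 8 := by
  rw [toTrunc_expand (g := 1 + 24 * (X : PowerSeries ℤ) + 324 * (X : PowerSeries ℤ) ^ 2 +
      3200 * (X : PowerSeries ℤ) ^ 3 + 25650 * (X : PowerSeries ℤ) ^ 4 +
      176256 * (X : PowerSeries ℤ) ^ 5 + 1073720 * (X : PowerSeries ℤ) ^ 6 +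
      5930496 * (X : PowerSeries ℤ) ^ 7 + 30178575 * (X : PowerSeries ℤ) ^ 8 +
      143184000 * (X : PowerSeries ℤ) ^ 9) _ (by
    rw [toTrunc_dedekindEtaUnitInv]
    simp only [map_add, map_mul, map_pow, map_one, map_ofNat])]
  simp only [map_add, map_mul, map_pow, map_one, map_ofNat, expand_X]
  linear_combination (176256 + 1073720 * ε ^ 2 + 5930496 * ε ^ 4 + 30178575 * ε ^ 6 +
      143184000 * ε ^ 8) * qe_pow_ten

theorem toTrunc_expand_jNum_2 :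
    toTrunc (expand 2 (by norm_num) ModularCurve.jNum) = 1 + 744 * ε ^ 2 + 196884 * ε ^ 4 +
        21493760 * ε ^ 6 + 864299970 * ε ^ 8 := by
  rw [toTrunc_expand (g := 1 + 744 * (X : PowerSeries ℤ) + 196884 * (X : PowerSeries ℤ) ^ 2 +
      21493760 * (X : PowerSeries ℤ) ^ 3 + 864299970 * (X : PowerSeries ℤ) ^ 4 +
      20245856256 * (X : PowerSeries ℤ) ^ 5 + 333202640600 * (X : PowerSeries ℤ) ^ 6 +
      4252023300096 * (X : PowerSeries ℤ) ^ 7 + 44656994071935 * (X : PowerSeries ℤ) ^ 8 +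
      401490886656000 * (X : PowerSeries ℤ) ^ 9) _ (by
    rw [toTrunc_jNum]
    simp only [map_add, map_mul, map_pow, map_one, map_ofNat])]
  simp only [map_add, map_mul, map_pow, map_one, map_ofNat, expand_X]
  linear_combination (20245856256 + 333202640600 * ε ^ 2 + 4252023300096 * ε ^ 4 +
      44656994071935 * ε ^ 6 + 401490886656000 * ε ^ 8) * qe_pow_ten

theorem toTrunc_expand_etaInv_3 :
    toTrunc (expand 3 (by norm_num) ModularCurve.dedekindEtaUnitInv) = 1 + 24 * ε ^ 3 +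
        324 * ε ^ 6 + 3200 * ε ^ 9 := by
  rw [toTrunc_expand (g := 1 + 24 * (X : PowerSeries ℤ) + 324 * (X : PowerSeries ℤ) ^ 2 +
      3200 * (X : PowerSeries ℤ) ^ 3 + 25650 * (X : PowerSeries ℤ) ^ 4 +
      176256 * (X : PowerSeries ℤ) ^ 5 + 1073720 * (X : PowerSeries ℤ) ^ 6 +
      5930496 * (X : PowerSeries ℤ) ^ 7 + 30178575 * (X : PowerSeries ℤ) ^ 8 +
      143184000 * (X : PowerSeries ℤ) ^ 9) _ (by
    rw [toTrunc_dedekindEtaUnitInv]
    simp only [map_add, map_mul, map_pow, map_one, map_ofNat])]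
  simp only [map_add, map_mul, map_pow, map_one, map_ofNat, expand_X]
  linear_combination (25650 * ε ^ 2 + 176256 * ε ^ 5 + 1073720 * ε ^ 8 + 5930496 * ε ^ 11 +
      30178575 * ε ^ 14 + 143184000 * ε ^ 17) * qe_pow_ten

theorem toTrunc_expand_jNum_3 :
    toTrunc (expand 3 (by norm_num) ModularCurve.jNum) = 1 + 744 * ε ^ 3 + 196884 * ε ^ 6 +
        21493760 * ε ^ 9 := by
  rw [toTrunc_expand (g := 1 + 744 * (X : PowerSeries ℤ) + 196884 * (X : PowerSeries ℤ) ^ 2 +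
      21493760 * (X : PowerSeries ℤ) ^ 3 + 864299970 * (X : PowerSeries ℤ) ^ 4 +
      20245856256 * (X : PowerSeries ℤ) ^ 5 + 333202640600 * (X : PowerSeries ℤ) ^ 6 +
      4252023300096 * (X : PowerSeries ℤ) ^ 7 + 44656994071935 * (X : PowerSeries ℤ) ^ 8 +
      401490886656000 * (X : PowerSeries ℤ) ^ 9) _ (by
    rw [toTrunc_jNum]
    simp only [map_add, map_mul, map_pow, map_one, map_ofNat])]
  simp only [map_add, map_mul, map_pow, map_one, map_ofNat, expand_X]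
  linear_combination (864299970 * ε ^ 2 + 20245856256 * ε ^ 5 + 333202640600 * ε ^ 8 +
      4252023300096 * ε ^ 11 + 44656994071935 * ε ^ 14 + 401490886656000 * ε ^ 17) * qe_pow_ten

end Fermat.Agent.Reduction.Hauptmodul
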