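import Fermat.Agent.Reduction.Hauptmodul.InvariantVanish
import Fermat.Agent.Reduction.Hauptmodul.Truncation

/-!
# The classical identities between `j`, `j(pτ)` and `Δ(τ)/Δ(pτ)` for `p = 2, 3`

`j_mul_wSer_two_sq`, `jTwo_mul_wSer_two`, `three_identity` and `three_identity'` are proved by
comparing enough coefficients (computed modulo `q¹⁰`) and applying the vanishing criterion
`serHom_eq_zero_of_ordGE`.
-/

set_option autoImplicit false

noncomputable section

open ModularCurve

namespace Fermat.Agent.Reduction.Hauptmodul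

open Fermat.Agent.Igusa

local notation "J₁" => jqModC ℤ
local notation "ε" => qe

theorem qExpand_ofPowerSeries {R : Type*} [CommRing R] (m : ℕ) [NeZero m] (f : PowerSeries R) :
    qExpand R m (HahnSeries.ofPowerSeries ℤ R f) =
      HahnSeries.ofPowerSeries ℤ R (PowerSeries.expand m (NeZero.ne m) f) := by
  ext k
  by_cases hk : (m : ℤ) ∣ k
  · obtain ⟨l, rfl⟩ := hk
    rw [qExpand_coeff_mul]
    rcases lt_or_ge l 0 with hl | hl
    · rw [ofPowerSeries_coeff_of_neg f hl, ofPowerSeries_coeff_of_neg _ (by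
        have : (0 : ℤ) < m := by exact_mod_cast NeZero.pos m
        nlinarith)]
    · lift l to ℕ using hl
      rw [← Nat.cast_mul, HahnSeries.ofPowerSeries_apply_coeff,
        HahnSeries.ofPowerSeries_apply_coeff, PowerSeries.coeff_expand_mul]
  · rw [qExpand_coeff_of_not_dvd m _ hk]
    rcases lt_or_ge k 0 with hl | hl
    · rw [ofPowerSeries_coeff_of_neg _ hl]
    · lift k to ℕ using hl
      rw [HahnSeries.ofPowerSeries_apply_coeff, PowerSeries.coeff_expand_of_not_dvd _ _ _
        fun h => hk (Int.natCast_dvd_natCast.mpr h)]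

/-- `q⁻¹`. -/
def qInv : LaurentSeries ℤ := HahnSeries.single (-1 : ℤ) 1

/-- Integral power series as Laurent series. -/
abbrev ofPS : PowerSeries ℤ →+* LaurentSeries ℤ := HahnSeries.ofPowerSeries ℤ ℤ

theorem qInv_pow (n : ℕ) : qInv ^ n = HahnSeries.single (-(n : ℤ)) 1 := by
  rw [qInv, HahnSeries.single_pow, one_pow]
  simp

theorem qInv_mul_X : qInv * ofPS PowerSeries.X = 1 := by
  rw [qInv, HahnSeries.ofPowerSeries_X, HahnSeries.single_mul_single]
  simp

theorem ordGE_qInv_pow {n k : ℕ} {F : PowerSeries ℤ} (h : PowerSeries.X ^ k ∣ F) :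
    OrdGE ((k : ℤ) - n) (qInv ^ n * ofPS F) := by
  obtain ⟨G, rfl⟩ := h
  rw [qInv_pow, map_mul, map_pow, HahnSeries.ofPowerSeries_X, HahnSeries.single_pow, one_pow,
    ← mul_assoc, HahnSeries.single_mul_single, one_mul]
  exact ((ordGE_single _ (1 : ℤ)).mul (ordGE_ofPowerSeries G)).mono (by simp [sub_eq_neg_add])

theorem jqModC_int : jqModC ℤ = qInv * ofPS jNum := by
  rw [jqModC, qInv, show PowerSeries.map (Int.castRingHom ℤ) jNum = jNum from
    PowerSeries.ext fun n => by simp]

theorem qExpand_jqModC_int (m : ℕ) [NeZero m] :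
    qExpand ℤ m J₁ = qInv ^ m * ofPS (PowerSeries.expand m (NeZero.ne m) jNum) := by
  rw [jqModC_int, map_mul, qExpand_ofPowerSeries, qInv, qExpand_single, HahnSeries.single_pow,
    one_pow]
  simp

/-- The power series part of `Δ(τ)/Δ(mτ)`. -/
def wPS (m : ℕ) [NeZero m] : PowerSeries ℤ :=
  dedekindEtaUnit * PowerSeries.expand m (NeZero.ne m) dedekindEtaUnitInv

theorem wSer_int (m k : ℕ) [NeZero m] (hk : k + 1 = m) :
    wSer m ℤ = qInv ^ k * ofPS (wPS m) := by
  have hid : ∀ f : PowerSeries ℤ, PowerSeries.map (Int.castRingHom ℤ) f = f := fun f =>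
    PowerSeries.ext fun n => by simp
  rw [wSer, deltaR, deltaInvR, map_mul, qExpand_ofPowerSeries, qExpand_single, hid, hid, wPS,
    map_mul, qInv_pow, mul_mul_mul_comm, HahnSeries.single_mul_single, one_mul]
  congr 3
  push_cast [← hk]
  ring

theorem isUnit_wSer (m : ℕ) [NeZero m] (R : Type*) [CommRing R] : IsUnit (wSer m R) :=
  IsUnit.of_mul_eq_one (deltaInvR R * qExpand R m (deltaR R)) (by
    rw [wSer, mul_mul_mul_comm, deltaR_mul_deltaInvR, ← map_mul, mul_comm (deltaInvR R),
      deltaR_mul_deltaInvR, map_one, one_mul])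

theorem toTrunc_wPS_two : toTrunc (wPS 2) = 1 + (-24) * ε + 276 * ε ^ 2 + (-2048) * ε ^ 3 +
    11202 * ε ^ 4 + (-49152) * ε ^ 5 + 184024 * ε ^ 6 + (-614400) * ε ^ 7 + 1881471 * ε ^ 8 +
    (-5373952) * ε ^ 9 := by
  rw [wPS, map_mul, toTrunc_dedekindEtaUnit, toTrunc_expand_etaInv_2]
  linear_combination (13767312 + (-32520960) * ε + 33488368 * ε ^ 2 + 77646720 * ε ^ 3 +
      (-793141200) * ε ^ 4 + 1795968000 * ε ^ 5 + (-2914942950) * ε ^ 6 +
      (-2973348000) * ε ^ 7) * qe_pow_ten

theorem toTrunc_wPS_three : toTrunc (wPS 3) = 1 + (-24) * ε + 252 * ε ^ 2 + (-1448) * ε ^ 3 +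
    4254 * ε ^ 4 + (-51748) * ε ^ 6 + 192624 * ε ^ 7 + (-177147) * ε ^ 8 + (-991504) * ε ^ 9 := by
  rw [wPS, map_mul, toTrunc_dedekindEtaUnit, toTrunc_expand_etaInv_3]
  linear_combination (3515640 + (-3880584) * ε + (-12917536) * ε ^ 2 + 42827520 * ε ^ 3 +
      (-56173932) * ε ^ 4 + (-91138880) * ε ^ 5 + 270336000 * ε ^ 6 + (-363657600) * ε ^ 7 +
      (-370944000) * ε ^ 8) * qe_pow_ten

theorem dvd_of_toTrunc {F : PowerSeries ℤ} {k : ℕ} (hk : k ≤ 10) {c : Trunc10}
    (h : toTrunc F = qe ^ k * c) : PowerSeries.X ^ k ∣ F := by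
  obtain ⟨G, rfl⟩ := Ideal.Quotient.mk_surjective c
  rw [← map_pow, ← map_mul, Ideal.Quotient.mk_eq_mk_iff_sub_mem, Ideal.mem_span_singleton] at h
  have h1 := dvd_add ((pow_dvd_pow _ hk).trans h) (dvd_mul_right (PowerSeries.X ^ k) G)
  rwa [sub_add_cancel] at h1

theorem two_cases {N : ℕ} [NeZero N] {x : Cst N → LaurentSeries (Rz N)}
    (h0 : OrdGE 1 (x cst0)) (h : ∀ i, i ≠ cst0 → OrdGE 0 (x i)) (i : Cst N) : OrdGE 0 (x i) := by
  rcases eq_or_ne i cst0 with rfl | hi
  · exact h0.mono (by norm_num)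
  · exact h i hi

instance : Fact (Nat.Prime 2) := ⟨Nat.prime_two⟩

/-- `j = (x + 256)³ / x²` for `x = Δ(τ)/Δ(2τ)`. -/
theorem j_mul_wSer_two_sq : J₁ * wSer 2 ℤ ^ 2 = (wSer 2 ℤ + 256) ^ 3 := by
  rw [← sub_eq_zero]
  apply atInfty_injective (N := 2)
  rw [map_zero]
  let x : Cst 2 → AQ 2 := fun i =>
    jFam (one_dvd 2) i * wFam dvd_rfl i ^ 2 - (wFam dvd_rfl i + 256) ^ 3
  have hser : serHom (N := 2) (x cst0) = atInfty 2 (J₁ * wSer 2 ℤ ^ 2 - (wSer 2 ℤ + 256) ^ 3) := by
    simp only [x, atInfty, RingHom.comp_apply, map_sub, map_mul, map_pow, map_add, map_ofNat,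
      serHom_jFam_one_cst0, serHom_wFam_self_cst0]
  rw [← hser]
  have h0 : OrdGE 1 (serHom (N := 2) (x cst0)) := by
    rw [hser]
    refine OrdGE.atInfty (n := ((4 : ℕ) : ℤ) - (3 : ℕ)) ?_ (by norm_num)
    rw [show J₁ * wSer 2 ℤ ^ 2 - (wSer 2 ℤ + 256) ^ 3 = qInv ^ 3 *
        ofPS (jNum * wPS 2 ^ 2 - (wPS 2 + 256 * PowerSeries.X) ^ 3) by
      simp only [map_sub, map_mul, map_pow, map_add, map_ofNat, wSer_int 2 1 rfl, jqModC_int]
      linear_combination (256 * (3 * qInv ^ 2 * ofPS (wPS 2) ^ 2 +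
        256 * 3 * qInv * ofPS (wPS 2) * (qInv * ofPS PowerSeries.X + 1) +
        256 ^ 2 * ((qInv * ofPS PowerSeries.X) ^ 2 + qInv * ofPS PowerSeries.X + 1))) * qInv_mul_X]
    refine ordGE_qInv_pow (dvd_of_toTrunc (c := (-3176440215306240) * ε ^ 6 +
        129901736987983872 * ε ^ 7 + (-2646004440157388800) * ε ^ 8 +
        35779538918257459200 * ε ^ 9 + (-361823804467648659456) * ε ^ 10 +
        2925923570019372892160 * ε ^ 11 + (-19784052569716039876608) * ε ^ 12 +
        115479199964801047461888 * ε ^ 13 + (-596717740983583410290688) * ε ^ 14 +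
        2782417265581193660203008 * ε ^ 15 + (-11805681589043248846602240) * ε ^ 16 +
        45427451421441390756757504 * ε ^ 17 + (-157257990844757089157775360) * ε ^ 18 +
        487085047762314684134326272 * ε ^ 19 + (-1345710644764802806883811328) * ε ^ 20 +
        3292248771486244509937827840 * ε ^ 21 + (-6829231140684794828855181312) * ε ^ 22 +
        11594800047122275240832401408 * ε ^ 23) (by norm_num) ?_)
    simp only [map_sub, map_mul, map_pow, map_add, map_ofNat, toTrunc_jNum, toTrunc_wPS_two]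
    ring
  refine serHom_eq_zero_of_ordGE x (fun γ i => ?_) (two_cases h0 fun i hi => ?_) h0
  · simp only [x, map_sub, map_mul, map_pow, map_add, map_ofNat,
      equivariant_jFam (one_dvd 2) γ i, equivariant_wFam dvd_rfl γ i]
  · have hw := ordGE_wFam_self Nat.prime_two hi
    simp only [x, map_sub, map_mul, map_pow, map_add, map_ofNat]
    exact ((ordGE_jFam_one i).mul (hw.pow 2)).mono (by norm_num) |>.sub
      ((((hw.mono (by norm_num)).add (ordGE_ofNat 256)).pow 3).mono (by norm_num))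

/-- `j(2τ) = (x + 16)³ / x`. -/
theorem jTwo_mul_wSer_two : qExpand ℤ 2 J₁ * wSer 2 ℤ = (wSer 2 ℤ + 16) ^ 3 := by
  rw [← sub_eq_zero]
  apply atInfty_injective (N := 2)
  rw [map_zero]
  let x : Cst 2 → AQ 2 := fun i =>
    jFam dvd_rfl i * wFam dvd_rfl i - (wFam dvd_rfl i + 16) ^ 3
  have hser : serHom (N := 2) (x cst0) =
      atInfty 2 (qExpand ℤ 2 J₁ * wSer 2 ℤ - (wSer 2 ℤ + 16) ^ 3) := by
    simp only [x, atInfty, RingHom.comp_apply, map_sub, map_mul, map_pow, map_add, map_ofNat,
      serHom_jFam_self_cst0, serHom_wFam_self_cst0]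
  rw [← hser]
  have h0 : OrdGE 1 (serHom (N := 2) (x cst0)) := by
    rw [hser]
    refine OrdGE.atInfty (n := ((4 : ℕ) : ℤ) - (3 : ℕ)) ?_ (by norm_num)
    rw [show qExpand ℤ 2 J₁ * wSer 2 ℤ - (wSer 2 ℤ + 16) ^ 3 = qInv ^ 3 *
        ofPS (PowerSeries.expand 2 (NeZero.ne 2) jNum * wPS 2 -
          (wPS 2 + 16 * PowerSeries.X) ^ 3) by
      simp only [map_sub, map_mul, map_pow, map_add, map_ofNat, wSer_int 2 1 rfl,
        qExpand_jqModC_int 2]
      linear_combination (16 * (3 * qInv ^ 2 * ofPS (wPS 2) ^ 2 +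
        16 * 3 * qInv * ofPS (wPS 2) * (qInv * ofPS PowerSeries.X + 1) +
        16 ^ 2 * ((qInv * ofPS PowerSeries.X) ^ 2 + qInv * ofPS PowerSeries.X + 1))) * qInv_mul_X]
    refine ordGE_qInv_pow (dvd_of_toTrunc (c := (-20216899896) * ε ^ 6 + 485131353408 * ε ^ 7 +
        (-5903110735132) * ε ^ 8 + 49044868182432 * ε ^ 9 + (-319095485704560) * ε ^ 10 +
        1708501479266176 * ε ^ 11 + (-8305849379558649) * ε ^ 12 + 34315521430222872 * ε ^ 13 +
        (-142250285504050972) * ε ^ 14 + 483062594645760000 * ε ^ 15 +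
        (-1521143470404918918) * ε ^ 16 + 4406978729926213632 * ε ^ 17 +
        (-11682962510657721480) * ε ^ 18 + 28032964557981622272 * ε ^ 19 +
        (-59876717809317404799) * ε ^ 20 + 110300728605388701696 * ε ^ 21 +
        (-163007035570548375552) * ε ^ 22 + 155196294959000977408 * ε ^ 23) (by norm_num) ?_)
    simp only [map_sub, map_mul, map_pow, map_add, map_ofNat, toTrunc_expand_jNum_2,
        toTrunc_wPS_two]
    ring
  refine serHom_eq_zero_of_ordGE x (fun γ i => ?_) (two_cases h0 fun i hi => ?_) h0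
  · simp only [x, map_sub, map_mul, map_pow, map_add, map_ofNat,
      equivariant_jFam dvd_rfl γ i, equivariant_wFam dvd_rfl γ i]
  · have hw := ordGE_wFam_self Nat.prime_two hi
    simp only [x, map_sub, map_mul, map_pow, map_add, map_ofNat]
    exact ((ordGE_jFam_self Nat.prime_two hi).mul hw).mono (by norm_num) |>.sub
      ((((hw.mono (by norm_num)).add (ordGE_ofNat 16)).pow 3).mono (by norm_num))

/-- First identity at level three. -/
theorem three_identity :
    (wSer 3 ℤ ^ 2 + 196830 * wSer 3 ℤ + 387420489) ^ 2 =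
      wSer 3 ℤ * (J₁ * wSer 3 ℤ - 756 * wSer 3 ℤ - 19131876) ^ 2 := by
  rw [← sub_eq_zero]
  apply atInfty_injective (N := 3)
  rw [map_zero]
  let x : Cst 3 → AQ 3 := fun i =>
    (wFam dvd_rfl i ^ 2 + 196830 * wFam dvd_rfl i + 387420489) ^ 2 -
      wFam dvd_rfl i * (jFam (one_dvd 3) i * wFam dvd_rfl i - 756 * wFam dvd_rfl i - 19131876) ^ 2
  have hser : serHom (N := 3) (x cst0) = atInfty 3
      ((wSer 3 ℤ ^ 2 + 196830 * wSer 3 ℤ + 387420489) ^ 2 -
        wSer 3 ℤ * (J₁ * wSer 3 ℤ - 756 * wSer 3 ℤ - 19131876) ^ 2) := by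
    simp only [x, atInfty, RingHom.comp_apply, map_sub, map_mul, map_pow, map_add, map_ofNat,
      serHom_jFam_one_cst0, serHom_wFam_self_cst0]
  rw [← hser]
  have h0 : OrdGE 1 (serHom (N := 3) (x cst0)) := by
    rw [hser]
    refine OrdGE.atInfty (n := ((10 : ℕ) : ℤ) - (8 : ℕ)) ?_ (by norm_num)
    have hE : wSer 3 ℤ ^ 2 + 196830 * wSer 3 ℤ + 387420489 = qInv ^ 4 *
        ofPS (wPS 3 ^ 2 + 196830 * (wPS 3 * PowerSeries.X ^ 2) +
          387420489 * PowerSeries.X ^ 4) := by
      simp only [map_mul, map_pow, map_add, map_ofNat, wSer_int 3 2 rfl]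
      linear_combination -(196830 * qInv ^ 2 * ofPS (wPS 3) * (qInv * ofPS PowerSeries.X + 1) +
        387420489 * ((qInv * ofPS PowerSeries.X) ^ 3 + (qInv * ofPS PowerSeries.X) ^ 2 +
          qInv * ofPS PowerSeries.X + 1)) * qInv_mul_X
    have hd : J₁ * wSer 3 ℤ - 756 * wSer 3 ℤ - 19131876 = qInv ^ 3 *
        ofPS (jNum * wPS 3 - 756 * (wPS 3 * PowerSeries.X) - 19131876 * PowerSeries.X ^ 3) := by
      simp only [map_sub, map_mul, map_pow, map_ofNat, wSer_int 3 2 rfl, jqModC_int]
      linear_combination (756 * qInv ^ 2 * ofPS (wPS 3) + 19131876 *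
        ((qInv * ofPS PowerSeries.X) ^ 2 + qInv * ofPS PowerSeries.X + 1)) * qInv_mul_X
    rw [hE, hd, wSer_int 3 2 rfl, show ∀ a b c : PowerSeries ℤ, (qInv ^ 4 * ofPS a) ^ 2 -
        qInv ^ 2 * ofPS b * (qInv ^ 3 * ofPS c) ^ 2 = qInv ^ 8 * ofPS (a ^ 2 - b * c ^ 2) from
      fun a b c => by simp only [map_sub, map_mul, map_pow]; ring]
    refine ordGE_qInv_pow (dvd_of_toTrunc (c := 6352880455518588 + (-488507171688725688) * ε +
        1268551061917021818308 * ε ^ 2 + (-66572135812754448381216) * ε ^ 3 +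
        4131304003682112754155852 * ε ^ 4 + (-97418263642721699865849312) * ε ^ 5 +
        1233467109962196822089558712 * ε ^ 6 + (-9670358449998696570215004432) * ε ^ 7 +
        47977382532951040249810350684 * ε ^ 8 + (-127298480629332930103686040344) * ε ^ 9 +
        (-10177175352032073597688695603486) * ε ^ 10 + 585515911567785403632821771564000 * ε ^ 11 +
        (-16189165447131062276289964369321776) * ε ^ 12 +
        284734422150562847001818711656548720 * ε ^ 13 +
        (-3530322351117051995489936617790932578) * ε ^ 14 +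
        32280785309743032586304264148387642096 * ε ^ 15 +
        (-219514905303176198050783969609892625156) * ε ^ 16 +
        1067141108793012178279016714354202795096 * ε ^ 17 +
        (-3067789850319851544955349579761052082144) * ε ^ 18 +
        (-1671878205686292791256934499723422775616) * ε ^ 19 +
        73058128164664445462858268880939064178928 * ε ^ 20 +
        (-416362858031929560054793971254026656078816) * ε ^ 21 +
        1161698615831211335312822168110604216217720 * ε ^ 22 +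
        (-27236169925351579231050764146269774466608) * ε ^ 23 +
        (-14581506036294788075301026447299272988539180) * ε ^ 24 +
        62520483834019681388324081372499180255141048 * ε ^ 25 +
        (-95585212058315212996261539581641298610155334) * ε ^ 26 +
        (-226563840334263023058326037009937670286590976) * ε ^ 27 +
        1481361319332085628331288263123793592600913532 * ε ^ 28 +
        (-2567193448420278608347178805440624149075051856) * ε ^ 29 +
        (-2865447857406062744624181276799423331307100029) * ε ^ 30 +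
        19883802148753077083762964634120876179882266544 * ε ^ 31 +
        (-20792216418068515984983251092337254041167589120) * ε ^ 32 +
        (-52521250377226488810802167274872193099239321600) * ε ^ 33 +
        119168677095748255604494068814378474489774080000 * ε ^ 34 +
        157121202910625924074147004027088094101504000000 * ε ^ 35) le_rfl ?_)
    simp only [map_sub, map_mul, map_pow, map_add, map_ofNat, toTrunc_jNum, toTrunc_wPS_three]
    ring
  refine serHom_eq_zero_of_ordGE x (fun γ i => ?_) (two_cases h0 fun i hi => ?_) h0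
  · simp only [x, map_sub, map_mul, map_pow, map_add, map_ofNat,
      equivariant_jFam (one_dvd 3) γ i, equivariant_wFam dvd_rfl γ i]
  · have hw := ordGE_wFam_self Nat.prime_three hi
    simp only [x, map_sub, map_mul, map_pow, map_add, map_ofNat]
    have hw0 := hw.mono (show (0 : ℤ) ≤ ((3 : ℕ) : ℤ) - 1 by norm_num)
    have hjw := ((ordGE_jFam_one i).mul hw).mono (show (-1 : ℤ) ≤ -((3 : ℕ) : ℤ) +
        (((3 : ℕ) : ℤ) - 1) by norm_num)
    have hd := (hjw.sub ((((ordGE_ofNat 756).mul hw0)).mono (by norm_num))).sub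
      ((ordGE_ofNat 19131876).mono (show (-1 : ℤ) ≤ 0 by norm_num))
    exact (((((hw0.pow 2).mono (show (0 : ℤ) ≤ _ by norm_num)).add
      (((ordGE_ofNat 196830).mul hw0).mono (by norm_num))).add (ordGE_ofNat 387420489)).pow 2).mono
        (by norm_num) |>.sub ((hw.mul (hd.pow 2)).mono (by norm_num))

/-- Second identity at level three. -/
theorem three_identity' :
    (wSer 3 ℤ ^ 2 + 270 * wSer 3 ℤ + 729) * (J₁ * wSer 3 ℤ - 756 * wSer 3 ℤ - 19131876) =
      (wSer 3 ℤ ^ 2 + 196830 * wSer 3 ℤ + 387420489) *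
        (qExpand ℤ 3 J₁ - 36 * wSer 3 ℤ - 756) := by
  apply (isUnit_wSer 3 ℤ).mul_left_cancel
  rw [← sub_eq_zero]
  apply atInfty_injective (N := 3)
  rw [map_zero]
  let x : Cst 3 → AQ 3 := fun i =>
    wFam dvd_rfl i * ((wFam dvd_rfl i ^ 2 + 270 * wFam dvd_rfl i + 729) *
        (jFam (one_dvd 3) i * wFam dvd_rfl i - 756 * wFam dvd_rfl i - 19131876)) -
      wFam dvd_rfl i * ((wFam dvd_rfl i ^ 2 + 196830 * wFam dvd_rfl i + 387420489) *
        (jFam dvd_rfl i - 36 * wFam dvd_rfl i - 756))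
  have hser : serHom (N := 3) (x cst0) = atInfty 3
      (wSer 3 ℤ * ((wSer 3 ℤ ^ 2 + 270 * wSer 3 ℤ + 729) *
          (J₁ * wSer 3 ℤ - 756 * wSer 3 ℤ - 19131876)) -
        wSer 3 ℤ * ((wSer 3 ℤ ^ 2 + 196830 * wSer 3 ℤ + 387420489) *
          (qExpand ℤ 3 J₁ - 36 * wSer 3 ℤ - 756))) := by
    simp only [x, atInfty, RingHom.comp_apply, map_sub, map_mul, map_pow, map_add, map_ofNat,
      serHom_jFam_one_cst0, serHom_jFam_self_cst0, serHom_wFam_self_cst0]
  rw [← hser]
  have h0 : OrdGE 1 (serHom (N := 3) (x cst0)) := by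
    rw [hser]
    refine OrdGE.atInfty (n := ((10 : ℕ) : ℤ) - (9 : ℕ)) ?_ (by norm_num)
    have hE : ∀ a b : ℕ, wSer 3 ℤ ^ 2 + (a : LaurentSeries ℤ) * wSer 3 ℤ + (b : LaurentSeries ℤ) =
        qInv ^ 4 *
        ofPS (wPS 3 ^ 2 + (a : PowerSeries ℤ) * (wPS 3 * PowerSeries.X ^ 2) +
            (b : PowerSeries ℤ) * PowerSeries.X ^ 4) := by
      intro a b
      simp only [map_mul, map_pow, map_add, map_natCast, wSer_int 3 2 rfl]
      linear_combination -((a : LaurentSeries ℤ) * qInv ^ 2 * ofPS (wPS 3) *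
          (qInv * ofPS PowerSeries.X + 1) +
        (b : LaurentSeries ℤ) * ((qInv * ofPS PowerSeries.X) ^ 3 + (qInv * ofPS PowerSeries.X) ^ 2 +
          qInv * ofPS PowerSeries.X + 1)) * qInv_mul_X
    have hd : J₁ * wSer 3 ℤ - 756 * wSer 3 ℤ - 19131876 = qInv ^ 3 *
        ofPS (jNum * wPS 3 - 756 * (wPS 3 * PowerSeries.X) - 19131876 * PowerSeries.X ^ 3) := by
      simp only [map_sub, map_mul, map_pow, map_ofNat, wSer_int 3 2 rfl, jqModC_int]
      linear_combination (756 * qInv ^ 2 * ofPS (wPS 3) + 19131876 *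
        ((qInv * ofPS PowerSeries.X) ^ 2 + qInv * ofPS PowerSeries.X + 1)) * qInv_mul_X
    have hd' : qExpand ℤ 3 J₁ - 36 * wSer 3 ℤ - 756 = qInv ^ 3 *
        ofPS (PowerSeries.expand 3 (NeZero.ne 3) jNum - 36 * (wPS 3 * PowerSeries.X) -
          756 * PowerSeries.X ^ 3) := by
      simp only [map_sub, map_mul, map_pow, map_ofNat, wSer_int 3 2 rfl, qExpand_jqModC_int 3]
      linear_combination (36 * qInv ^ 2 * ofPS (wPS 3) + 756 *
        ((qInv * ofPS PowerSeries.X) ^ 2 + qInv * ofPS PowerSeries.X + 1)) * qInv_mul_X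
    have h1 := hE 270 729
    have h2 := hE 196830 387420489
    simp only [Nat.cast_ofNat] at h1 h2
    rw [h1, h2, hd, hd', wSer_int 3 2 rfl, show ∀ a b c d e : PowerSeries ℤ,
        qInv ^ 2 * ofPS e * (qInv ^ 4 * ofPS a * (qInv ^ 3 * ofPS b)) -
          qInv ^ 2 * ofPS e * (qInv ^ 4 * ofPS c * (qInv ^ 3 * ofPS d)) =
            qInv ^ 9 * ofPS (e * (a * b - c * d)) from
      fun a b c d e => by simp only [map_sub, map_mul]; ring]
    refine ordGE_qInv_pow ((dvd_of_toTrunc (c := (-3176440233834672) + 206136303336342216 * ε +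
        (-7269277579608637636) * ε ^ 2 + 161645190073745696592 * ε ^ 3 +
        (-2442967901318065943340) * ε ^ 4 + 26342306204643211921208 * ε ^ 5 +
        (-207715924631118177435201) * ε ^ 6 + 1188330244270335335138400 * ε ^ 7 +
        (-4550678533461883967465106) * ε ^ 8 + 7099854552551990584329216 * ε ^ 9 +
        42920292407480057580310503 * ε ^ 10 + (-392678622626367774921591600) * ε ^ 11 +
        1563419533659885617219222628 * ε ^ 12 + (-2697129079023438425096550144) * ε ^ 13 +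
        (-6606139439952982600348272294) * ε ^ 14 + 60180302489232541737842447280 * ε ^ 15 +
        (-181717986417557899205365352262) * ε ^ 16 + 137112779289942667808433536664 * ε ^ 17 +
        1036752457154334157855460454240 * ε ^ 18 + (-4288700195853915433110510862368) * ε ^ 19 +
        5520820958156436359240011014916 * ε ^ 20 + 12755665498849236313464690859824 * ε ^ 21 +
        (-55099131587663466552150444089085) * ε ^ 22 + 36649847278690912428137688274864 * ε ^ 23 +
        163132696299599915076764922122496 * ε ^ 24 +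
        (-253286977934648851228056413859840) * ε ^ 25 +
        (-391344381984063293263901097984000) * ε ^ 26) le_rfl ?_).mul_left _)
    simp only [map_sub, map_mul, map_pow, map_add, map_ofNat, toTrunc_jNum,
      toTrunc_expand_jNum_3, toTrunc_wPS_three]
    ring
  refine serHom_eq_zero_of_ordGE x (fun γ i => ?_) (two_cases h0 fun i hi => ?_) h0
  · simp only [x, map_sub, map_mul, map_pow, map_add, map_ofNat,
      equivariant_jFam (one_dvd 3) γ i, equivariant_jFam dvd_rfl γ i, equivariant_wFam dvd_rfl γ i]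
  · have hw := ordGE_wFam_self Nat.prime_three hi
    simp only [x, map_sub, map_mul, map_pow, map_add, map_ofNat]
    have hw0 := hw.mono (show (0 : ℤ) ≤ ((3 : ℕ) : ℤ) - 1 by norm_num)
    have hjw := ((ordGE_jFam_one i).mul hw).mono (show (-1 : ℤ) ≤ -((3 : ℕ) : ℤ) +
        (((3 : ℕ) : ℤ) - 1) by norm_num)
    have hd := (hjw.sub ((((ordGE_ofNat 756).mul hw0)).mono (by norm_num))).sub
      ((ordGE_ofNat 19131876).mono (show (-1 : ℤ) ≤ 0 by norm_num))
    have hd' := ((ordGE_jFam_self Nat.prime_three hi).sub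
      ((((ordGE_ofNat 36).mul hw0)).mono (by norm_num))).sub
      ((ordGE_ofNat 756).mono (show (-1 : ℤ) ≤ 0 by norm_num))
    have hE := (((hw0.pow 2).mono (show (0 : ℤ) ≤ _ by norm_num)).add
      (((ordGE_ofNat 270).mul hw0).mono (by norm_num))).add (ordGE_ofNat 729)
    have hE' := (((hw0.pow 2).mono (show (0 : ℤ) ≤ _ by norm_num)).add
      (((ordGE_ofNat 196830).mul hw0).mono (by norm_num))).add (ordGE_ofNat 387420489)
    exact (hw.mul (hE.mul hd)).mono (by norm_num) |>.sub ((hw.mul (hE'.mul hd')).mono (by norm_num))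

end Fermat.Agent.Reduction.Hauptmodul
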