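import Fermat.Agent.Igusa.Irreducible

/-!
# Vanishing of invariant functions with non-negative order at all cusps

`OrdGE n s` says that the coefficients of `s` below `n` vanish. The main theorem
`serHom_eq_zero_of_ordGE` says that an equivariant family with non-negative order at all cusps
and positive order at `∞` vanishes; the other lemmas bound the orders of the families of `j` and
of `Δ(mτ)/Δ(τ)`.
-/

set_option autoImplicit false

noncomputable section

open ModularCurve
open scoped UpperHalfPlane MatrixGroups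

namespace Fermat.Agent.Reduction.Hauptmodul

open Fermat.Agent.Igusa

variable {R : Type*} [CommRing R]

/-- All coefficients below `n` vanish. -/
def OrdGE (n : ℤ) (s : LaurentSeries R) : Prop := ∀ k < n, s.coeff k = 0

theorem OrdGE.mono {n m : ℤ} {s : LaurentSeries R} (h : OrdGE n s) (hm : m ≤ n) : OrdGE m s :=
  fun k hk => h k (by omega)

theorem OrdGE.mul {a b : ℤ} {s t : LaurentSeries R} (hs : OrdGE a s) (ht : OrdGE b t) :
    OrdGE (a + b) (s * t) := by
  intro k hk
  rw [HahnSeries.coeff_mul]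
  refine Finset.sum_eq_zero fun x hx => ?_
  have h := (Finset.mem_antidiagonal.mp hx).2.2
  by_cases h1 : x.1 < a
  · rw [hs _ h1, zero_mul]
  · rw [ht _ (by omega), mul_zero]

theorem OrdGE.add {a : ℤ} {s t : LaurentSeries R} (hs : OrdGE a s) (ht : OrdGE a t) :
    OrdGE a (s + t) := fun k hk => by rw [HahnSeries.coeff_add, hs k hk, ht k hk, add_zero]

theorem OrdGE.sub {a : ℤ} {s t : LaurentSeries R} (hs : OrdGE a s) (ht : OrdGE a t) :
    OrdGE a (s - t) := fun k hk => by rw [HahnSeries.coeff_sub, hs k hk, ht k hk, sub_zero]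

theorem OrdGE.neg {a : ℤ} {s : LaurentSeries R} (hs : OrdGE a s) : OrdGE a (-s) := fun k hk => by
  rw [HahnSeries.coeff_neg, hs k hk, neg_zero]

theorem ordGE_C (c : R) : OrdGE 0 (HahnSeries.C c : LaurentSeries R) := fun k hk => by
  rw [HahnSeries.C_apply, HahnSeries.coeff_single_of_ne hk.ne]

theorem ordGE_one : OrdGE 0 (1 : LaurentSeries R) :=
  map_one (HahnSeries.C : R →+* LaurentSeries R) ▸ ordGE_C 1

theorem ordGE_natCast (n : ℕ) : OrdGE 0 (n : LaurentSeries R) :=
  map_natCast (HahnSeries.C : R →+* LaurentSeries R) n ▸ ordGE_C _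

theorem ordGE_ofNat (n : ℕ) [n.AtLeastTwo] : OrdGE 0 (OfNat.ofNat n : LaurentSeries R) := by
  exact ordGE_natCast n

theorem OrdGE.pow {a : ℤ} {s : LaurentSeries R} (hs : OrdGE a s) :
    ∀ n : ℕ, OrdGE (n * a) (s ^ n)
  | 0 => by simpa using ordGE_one
  | n + 1 => by
    rw [pow_succ]
    exact ((hs.pow n).mul hs).mono (le_of_eq (by push_cast; ring))

theorem ordGE_single (n : ℤ) (c : R) : OrdGE n (HahnSeries.single n c : LaurentSeries R) :=
  fun _ hk => HahnSeries.coeff_single_of_ne hk.ne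

theorem ordGE_ofPowerSeries (f : PowerSeries R) : OrdGE 0 (HahnSeries.ofPowerSeries ℤ R f) :=
  fun _ hk => ofPowerSeries_coeff_of_neg f hk

theorem OrdGE.qExpand {n : ℤ} {s : LaurentSeries R} (hs : OrdGE n s) (m : ℕ) [NeZero m] :
    OrdGE (m * n) (qExpand R m s) := by
  intro k hk
  by_cases hd : (m : ℤ) ∣ k
  · obtain ⟨l, rfl⟩ := hd
    rw [qExpand_coeff_mul]
    refine hs l ?_
    have : (0 : ℤ) < m := by exact_mod_cast NeZero.pos m
    nlinarith
  · exact qExpand_coeff_of_not_dvd m s hd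

theorem OrdGE.twist {n : ℤ} {s : LaurentSeries R} (hs : OrdGE n s) (c : Rˣ) :
    OrdGE n (Igusa.twist c s) := fun k hk => by rw [twist_coeff, hs k hk, mul_zero]

theorem OrdGE.coeffMap {S : Type*} [CommRing S] (f : R →+* S) {n : ℤ} {s : LaurentSeries R}
    (hs : OrdGE n s) : OrdGE n (ModularCurve.coeffMap f s) := fun k hk => by
  rw [coeffMap_coeff, hs k hk, map_zero]

theorem ordGE_prod {ι : Type*} (s : Finset ι) (x : ι → LaurentSeries R)
    (h : ∀ i ∈ s, OrdGE 0 (x i)) : OrdGE 0 (∏ i ∈ s, x i) := by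
  classical
  induction s using Finset.induction_on with
  | empty => simpa using ordGE_one
  | insert a s ha ih =>
    rw [Finset.prod_insert ha]
    simpa using (h a (Finset.mem_insert_self _ _)).mul
      (ih fun i hi => h i (Finset.mem_insert_of_mem hi))

theorem eq_zero_of_ordGE_evJ (N : ℕ) [NeZero N] {p : Polynomial R} (h : OrdGE 1 (evJ R N p)) :
    p = 0 := by
  by_contra hp
  refine Polynomial.leadingCoeff_ne_zero.mpr hp ?_
  have h1 := h (-((N : ℤ) * p.natDegree)) (by
    have : (0 : ℤ) ≤ (N : ℤ) * p.natDegree := by positivity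
    omega)
  rw [evJ, Polynomial.coe_eval₂RingHom, Polynomial.eval₂_eq_sum_range, HahnSeries.coeff_sum,
    Finset.sum_range_succ, Finset.sum_eq_zero, zero_add] at h1
  · rwa [HahnSeries.C_apply, HahnSeries.coeff_single_zero_mul, coeff_jW_pow_self, mul_one] at h1
  · intro i hi
    rw [HahnSeries.C_apply, HahnSeries.coeff_single_zero_mul, coeff_jW_pow_of_lt, mul_zero]
    have hi' : (i : ℤ) < p.natDegree := by exact_mod_cast Finset.mem_range.mp hi
    have hN : (0 : ℤ) < N := by exact_mod_cast NeZero.pos N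
    nlinarith

variable {N : ℕ} [NeZero N]

/-- An equivariant family, bounded at every cusp and vanishing at `∞`, vanishes. -/
theorem serHom_eq_zero_of_ordGE (x : Cst N → AQ N) (hx : Equivariant x)
    (h : ∀ i, OrdGE 0 (serHom (x i))) (h0 : OrdGE 1 (serHom (x cst0))) :
    serHom (x cst0) = 0 := by
  classical
  obtain ⟨P, -, -, hP⟩ := exists_charPoly x hx
  have hc := congrArg (fun q : Polynomial (LaurentSeries (Rz N)) => q.coeff 0) hP
  simp only [Polynomial.coeff_map, Polynomial.coeff_zero_prod, Polynomial.coeff_sub,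
    Polynomial.coeff_X_zero, Polynomial.coeff_C_zero, zero_sub] at hc
  have hord : OrdGE 1 (∏ i, -serHom (x i)) := by
    rw [← Finset.mul_prod_erase Finset.univ _ (Finset.mem_univ cst0)]
    simpa using h0.neg.mul (ordGE_prod _ _ fun i _ => (h i).neg)
  rw [← hc] at hord
  rw [eq_zero_of_ordGE_evJ N hord, map_zero, eq_comm, Finset.prod_eq_zero_iff] at hc
  obtain ⟨i, -, hi⟩ := hc
  rw [neg_eq_zero] at hi
  have hfn : fnHom (x i) = 0 := by
    funext τ
    have h1 : HasExp N (fnHom (x i)) (coeffMap (iotaR N) (serHom (x i))) := mem_QSR.mp (x i).2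
    rw [hi, map_zero] at h1
    refine (h1.2 τ).unique ?_
    simp only [HahnSeries.coeff_zero, zero_mul]
    exact hasSum_zero
  have hfn0 : fnHom (x cst0) = 0 := by
    obtain ⟨g, hg⟩ := MulAction.exists_smul_eq SL(2, ℤ) i (cst0 : Cst N)
    have h1 := hx g⁻¹ i
    rw [inv_inv, hg, hfn, map_zero] at h1
    exact h1.symm
  have h1 : HasExp N (fnHom (x cst0)) (coeffMap (iotaR N) (serHom (x cst0))) :=
    mem_QSR.mp (x cst0).2
  rw [hfn0] at h1
  have h2 := h1.eq_zero
  ext k
  simpa using congrArg (fun u : LaurentSeries ℂ => u.coeff k) h2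

theorem cst0_conjSer {m : ℕ} [NeZero m] (hm : m ∣ N) (s : LaurentSeries (Rz N)) :
    conjSer hm (repg (cst0 : Cst N)) s = qExpand (Rz N) N (qExpand (Rz N) m s) := by
  have := neZero_expo hm (repg (cst0 : Cst N))
  have h1 := cls_of_mem hm (repg_cst0_mem (N := N))
  have h2 : cod m (repg (cst0 : Cst N)) = 1 := by rw [cod, h1, Nat.div_self (NeZero.pos m)]
  have htw : tw N m (repg (cst0 : Cst N)) = 1 := by
    have hu : zetaU N ^ N = 1 := Units.ext (zetaR_pow_self N)
    rw [tw, h2, Nat.div_one, mul_comm, zpow_mul, zpow_natCast, hu, one_zpow]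
  have : NeZero (N * m) := ⟨Nat.mul_ne_zero (NeZero.ne N) (NeZero.ne m)⟩
  simp only [conjSer, htw, twist_one_apply]
  rw [qExpand_qExpand]
  exact qExpand_congr (by rw [expo, h1, h2, Nat.div_one, mul_comm]) _

omit [NeZero N] in
theorem expo_one (g : SL(2, ℤ)) : expo N 1 g = N := by
  have h1 : cls 1 g = 1 := Nat.dvd_one.mp (cls_dvd 1 g)
  rw [expo, cod, h1]
  simp

omit [NeZero N] in
theorem cls_eq_one_of_ne (hN : N.Prime) {i : Cst N} (hi : i ≠ cst0) : cls N (repg i) = 1 :=
  ((Nat.dvd_prime hN).mp (cls_dvd N (repg i))).resolve_right fun h => hi (eq_cst0_of_cls h)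

omit [NeZero N] in
theorem expo_self_eq_one (hN : N.Prime) {i : Cst N} (hi : i ≠ cst0) :
    expo N N (repg i) = 1 := by
  rw [expo, cod, cls_eq_one_of_ne hN hi, Nat.div_one, Nat.div_self hN.pos]

theorem ordGE_jqModC (R : Type*) [CommRing R] : OrdGE (-1) (jqModC R) := by
  rw [jqModC]
  simpa using (ordGE_single (-1) (1 : R)).mul (ordGE_ofPowerSeries _)

theorem ordGE_deltaR (R : Type*) [CommRing R] : OrdGE 1 (deltaR R) := by
  rw [deltaR]
  simpa using (ordGE_single 1 (1 : R)).mul (ordGE_ofPowerSeries _)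

theorem ordGE_deltaInvR (R : Type*) [CommRing R] : OrdGE (-1) (deltaInvR R) := by
  rw [deltaInvR]
  simpa using (ordGE_single (-1) (1 : R)).mul (ordGE_ofPowerSeries _)

theorem ordGE_conjSer {m : ℕ} [NeZero m] (hm : m ∣ N) (g : SL(2, ℤ)) {n : ℤ}
    {s : LaurentSeries (Rz N)} (hs : OrdGE n s) :
    OrdGE ((expo N m g : ℤ) * n) (conjSer hm g s) := by
  have := neZero_expo hm g
  exact (hs.twist (tw N m g)).qExpand _

theorem ordGE_jFam_one (i : Cst N) :
    OrdGE (-(N : ℤ)) (serHom (jFam (one_dvd N) i)) := by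
  simp only [jFam, serHom_mk]
  exact (ordGE_conjSer _ _ (ordGE_jqModC _)).mono (by rw [expo_one]; omega)

theorem ordGE_jFam_self (hN : N.Prime) {i : Cst N} (hi : i ≠ cst0) :
    OrdGE (-1) (serHom (jFam dvd_rfl i)) := by
  simp only [jFam, serHom_mk]
  exact (ordGE_conjSer _ _ (ordGE_jqModC _)).mono (by rw [expo_self_eq_one hN hi]; simp)

theorem ordGE_wFam_self (hN : N.Prime) {i : Cst N} (hi : i ≠ cst0) :
    OrdGE ((N : ℤ) - 1) (serHom (wFam dvd_rfl i)) := by
  simp only [wFam, serHom_mk]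
  exact (((ordGE_C _).mul ((ordGE_deltaR (Rz N)).qExpand N)).mul
    (ordGE_conjSer _ _ (ordGE_deltaInvR _))).mono (by rw [expo_self_eq_one hN hi]; push_cast; omega)

/-- The series of `Δ(τ)/Δ(Nτ)`. -/
def wSer (N : ℕ) [NeZero N] (R : Type*) [CommRing R] : LaurentSeries R :=
  deltaR R * qExpand R N (deltaInvR R)

theorem serHom_jFam_one_cst0 :
    serHom (jFam (one_dvd N) (cst0 : Cst N)) =
      qExpand (Rz N) N (coeffMap (Int.castRingHom _) (jqModC ℤ)) := by
  simp only [jFam, serHom_mk, cst0_conjSer, qExpand_one_apply, coeffMap_jqModC]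

theorem serHom_jFam_self_cst0 :
    serHom (jFam dvd_rfl (cst0 : Cst N)) =
      qExpand (Rz N) N (coeffMap (Int.castRingHom _) (qExpand ℤ N (jqModC ℤ))) := by
  simp only [jFam, serHom_mk, cst0_conjSer, coeffMap_qExpand, coeffMap_jqModC]

theorem serHom_wFam_self_cst0 :
    serHom (wFam dvd_rfl (cst0 : Cst N)) =
      qExpand (Rz N) N (coeffMap (Int.castRingHom _) (wSer N ℤ)) := by
  have h1 := cls_of_mem dvd_rfl (repg_cst0_mem (N := N))
  have h2 : cod N (repg (cst0 : Cst N)) = 1 := by rw [cod, h1, Nat.div_self (NeZero.pos N)]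
  simp only [wFam, serHom_mk, cst0_conjSer, h2, Nat.cast_one, one_pow, map_one, one_mul,
    wSer, map_mul, coeffMap_qExpand, coeffMap_deltaR, coeffMap_deltaInvR]

/-- The cusp `∞` on integral series. -/
def atInfty (N : ℕ) [NeZero N] : LaurentSeries ℤ →+* LaurentSeries (Rz N) :=
  (qExpand (Rz N) N).comp (coeffMap (Int.castRingHom (Rz N)))

theorem atInfty_injective : Function.Injective (atInfty N) := by
  refine (qExpand_injective N).comp fun s t h => ?_
  ext k
  refine (Int.cast_injective (α := ℂ)) ?_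
  have := congrArg (fun u : LaurentSeries (Rz N) => iotaR N (u.coeff k)) h
  simpa using this

theorem OrdGE.atInfty {n : ℤ} {s : LaurentSeries ℤ} (h : OrdGE n s) (hn : 1 ≤ n) :
    OrdGE 1 (Reduction.Hauptmodul.atInfty N s) :=
  ((h.coeffMap (Int.castRingHom (Rz N))).qExpand N).mono (by
    have : (1 : ℤ) ≤ N := by exact_mod_cast NeZero.pos N
    nlinarith)

end Fermat.Agent.Reduction.Hauptmodul
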